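import Fermat.Agent.S20.Defs

/-!
# S20 / package Cc (helper783): closure properties of `IsMF` and the `conj` API

Everything is about the function-level predicates of `Fermat.Agent.S20.Defs`.
-/

set_option autoImplicit false

open UpperHalfPlane ModularForm CongruenceSubgroup Matrix.SpecialLinearGroup EisensteinSeries
open scoped MatrixGroups ModularForm Manifold

namespace Fermat.Agent.S20.H783

variable {Γ : Subgroup SL(2, ℤ)} {k k₁ k₂ : ℤ} {f g : ℍ → ℂ}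

/-! ### closure properties of `IsMF` -/

theorem isMF_congr (h : k₁ = k₂) (hf : IsMF Γ k₁ f) : IsMF Γ k₂ f := h ▸ hf

theorem isMF_zero : IsMF Γ k (0 : ℍ → ℂ) := by
  refine ⟨mdifferentiable_const, fun γ _ => SlashAction.zero_slash _ _, fun γ => ?_⟩
  rw [SlashAction.zero_slash]
  exact (boundedAtImInftySubalgebra ℂ).zero_mem

theorem isMF_add (hf : IsMF Γ k f) (hg : IsMF Γ k g) : IsMF Γ k (f + g) := by
  obtain ⟨hf1, hf2, hf3⟩ := hf
  obtain ⟨hg1, hg2, hg3⟩ := hg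
  refine ⟨hf1.add hg1, fun γ hγ => ?_, fun γ => ?_⟩
  · rw [SlashAction.add_slash, hf2 γ hγ, hg2 γ hγ]
  · rw [SlashAction.add_slash]
    exact (boundedAtImInftySubalgebra ℂ).add_mem (hf3 γ) (hg3 γ)

theorem isMF_smul (c : ℂ) (hf : IsMF Γ k f) : IsMF Γ k (c • f) := by
  obtain ⟨hf1, hf2, hf3⟩ := hf
  refine ⟨hf1.const_smul c, fun γ hγ => ?_, fun γ => ?_⟩
  · rw [ModularForm.SL_smul_slash, hf2 γ hγ]
  · rw [ModularForm.SL_smul_slash]
    exact (boundedAtImInftySubalgebra ℂ).smul_mem (hf3 γ) c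

theorem isMF_neg (hf : IsMF Γ k f) : IsMF Γ k (-f) := by
  have := isMF_smul (-1 : ℂ) hf
  simpa using this

theorem isMF_sub (hf : IsMF Γ k f) (hg : IsMF Γ k g) : IsMF Γ k (f - g) := by
  rw [sub_eq_add_neg]
  exact isMF_add hf (isMF_neg hg)

theorem isMF_sum {ι : Type*} (s : Finset ι) (F : ι → ℍ → ℂ)
    (hF : ∀ i ∈ s, IsMF Γ k (F i)) : IsMF Γ k (∑ i ∈ s, F i) := by
  classical
  induction s using Finset.induction_on with
  | empty => simpa using (isMF_zero : IsMF Γ k 0)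
  | insert a s ha ih =>
    rw [Finset.sum_insert ha]
    exact isMF_add (hF a (Finset.mem_insert_self a s))
      (ih fun i hi => hF i (Finset.mem_insert_of_mem hi))

theorem isMF_mul (hf : IsMF Γ k₁ f) (hg : IsMF Γ k₂ g) : IsMF Γ (k₁ + k₂) (f * g) := by
  obtain ⟨hf1, hf2, hf3⟩ := hf
  obtain ⟨hg1, hg2, hg3⟩ := hg
  refine ⟨hf1.mul hg1, fun γ hγ => ?_, fun γ => ?_⟩
  · rw [ModularForm.mul_slash_SL2, hf2 γ hγ, hg2 γ hγ]
  · rw [ModularForm.mul_slash_SL2]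
    exact (boundedAtImInftySubalgebra ℂ).mul_mem (hf3 γ) (hg3 γ)

theorem isMF_one : IsMF Γ 0 (1 : ℍ → ℂ) := by
  refine ⟨mdifferentiable_const, fun γ _ => ModularForm.is_invariant_one γ, fun γ => ?_⟩
  rw [ModularForm.is_invariant_one]
  exact (boundedAtImInftySubalgebra ℂ).one_mem

theorem isMF_pow (hf : IsMF Γ k f) (n : ℕ) : IsMF Γ (n * k) (f ^ n) := by
  induction n with
  | zero => simpa using (isMF_one : IsMF Γ 0 1)
  | succ n ih =>
    rw [pow_succ]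
    exact isMF_congr (by push_cast; ring) (isMF_mul ih hf)

theorem isMF_of_top (hf : IsMF ⊤ k f) : IsMF Γ k f :=
  ⟨hf.1, fun γ _ => hf.2.1 γ (Subgroup.mem_top γ), hf.2.2⟩

theorem slash_eq_of_top (hf : IsMF ⊤ k f) (γ : SL(2, ℤ)) : f ∣[k] γ = f :=
  hf.2.1 γ (Subgroup.mem_top γ)

theorem isMF_of_modularForm (F : ModularForm 𝒮ℒ k) : IsMF ⊤ k (⇑F) := by
  have hinv : ∀ γ : SL(2, ℤ), (⇑F) ∣[k] γ = ⇑F := fun γ =>
    SlashInvariantFormClass.slash_action_eq F _ ⟨γ, rfl⟩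
  refine ⟨ModularFormClass.holo F, fun γ _ => hinv γ, fun γ => ?_⟩
  rw [hinv γ]
  exact ModularFormClass.bdd_at_infty F

theorem isMF_E₄ : IsMF ⊤ 4 (⇑E₄) := isMF_of_modularForm E₄

theorem isMF_E₆ : IsMF ⊤ 6 (⇑E₆) := isMF_of_modularForm E₆

/-! ### the `conj` API -/

/-- For `Γ`-invariant `f`, the conjugate attached to the coset `gΓ` is `f ∣[k] g⁻¹`. -/
theorem conj_eq_slash_inv (hf : ∀ γ ∈ Γ, f ∣[k] γ = f) (g : SL(2, ℤ)) :
    conj Γ k f (g : SL(2, ℤ) ⧸ Γ) = f ∣[k] g⁻¹ := by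
  obtain ⟨h, hh⟩ := QuotientGroup.mk_out_eq_mul Γ g
  unfold conj
  rw [hh, mul_inv_rev, SlashAction.slash_mul, hf _ (Γ.inv_mem h.2)]

/-- The slash action permutes the conjugates. -/
theorem conj_slash (hf : ∀ γ ∈ Γ, f ∣[k] γ = f) (q : SL(2, ℤ) ⧸ Γ) (γ : SL(2, ℤ)) :
    (conj Γ k f q) ∣[k] γ = conj Γ k f (γ⁻¹ • q) := by
  induction q using QuotientGroup.induction_on with
  | H g =>
    rw [conj_eq_slash_inv hf, ← SlashAction.slash_mul]
    have : γ⁻¹ • (g : SL(2, ℤ) ⧸ Γ) = ((γ⁻¹ * g : SL(2, ℤ)) : SL(2, ℤ) ⧸ Γ) := rfl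
    rw [this, conj_eq_slash_inv hf, mul_inv_rev, inv_inv]

/-- Conjugates of a product with a level-one form. -/
theorem conj_mul_levelOne {w : ℤ} {a : ℍ → ℂ} (ha : IsMF ⊤ w a) (q : SL(2, ℤ) ⧸ Γ) :
    conj Γ (w + k) (a * f) q = a * conj Γ k f q := by
  unfold conj
  rw [ModularForm.mul_slash_SL2, slash_eq_of_top ha]

theorem conj_add (q : SL(2, ℤ) ⧸ Γ) : conj Γ k (f + g) q = conj Γ k f q + conj Γ k g q := by
  unfold conj
  rw [SlashAction.add_slash]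

theorem conj_smul (c : ℂ) (q : SL(2, ℤ) ⧸ Γ) : conj Γ k (c • f) q = c • conj Γ k f q := by
  unfold conj
  rw [ModularForm.SL_smul_slash]

theorem conj_sum {ι : Type*} (s : Finset ι) (F : ι → ℍ → ℂ) (q : SL(2, ℤ) ⧸ Γ) :
    conj Γ k (∑ i ∈ s, F i) q = ∑ i ∈ s, conj Γ k (F i) q := by
  unfold conj
  rw [SlashAction.sum_slash]

theorem conj_mdiff (hf : MDiff f) (q : SL(2, ℤ) ⧸ Γ) : MDiff (conj Γ k f q) := by
  unfold conj
  rw [ModularForm.SL_slash]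
  exact hf.slash k _

end Fermat.Agent.S20.H783
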