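import Fermat.Agent.S20.H783.Basic

/-!
# S20 / package Cc (helper783): pointwise independence of a homogeneous basis

`relSub k F τ` is the space of relations `∑ c_j (F_j ∣[k_j] g)(τ) = 0` (for all `g`) among the
values at `τ` of all translates.  Main result: `relSub_eq_bot_of` and
`pointwise_indep_of_div`.
-/

set_option autoImplicit false

open UpperHalfPlane ModularForm CongruenceSubgroup Matrix.SpecialLinearGroup EisensteinSeries
open scoped MatrixGroups ModularForm Manifold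

namespace Fermat.Agent.S20.H783

variable {N : ℕ} [NeZero N] {ι : Type} [Fintype ι] {k : ι → ℤ} {F : ι → ℍ → ℂ}

/-- Slash of a product with a level-one form. -/
theorem mul_slash_levelOne {w K k : ℤ} (hK : K = w + k) {a : ℍ → ℂ} (ha : IsMF ⊤ w a)
    (f : ℍ → ℂ) (g : SL(2, ℤ)) : (a * f) ∣[K] g = a * (f ∣[k] g) := by
  subst hK
  rw [ModularForm.mul_slash_SL2, slash_eq_of_top ha]

/-- The relations among the values at `τ` of all translates of the `F j`. -/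
def relSub (k : ι → ℤ) (F : ι → ℍ → ℂ) (τ : ℍ) : Submodule ℂ (ι → ℂ) where
  carrier := {c | ∀ g : SL(2, ℤ), ∑ j, c j * (F j ∣[k j] g) τ = 0}
  add_mem' := by
    intro c c' hc hc' g
    have h1 := hc g
    have h2 := hc' g
    simp only [Pi.add_apply, add_mul, Finset.sum_add_distrib, h1, h2, add_zero]
  zero_mem' := by
    intro g
    simp
  smul_mem' := by
    intro x c hc g
    have h1 := hc g
    simp only [Pi.smul_apply, smul_eq_mul, mul_assoc, ← Finset.mul_sum, h1, mul_zero]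

theorem mem_relSub {τ : ℍ} {c : ι → ℂ} :
    c ∈ relSub k F τ ↔ ∀ g : SL(2, ℤ), ∑ j, c j * (F j ∣[k j] g) τ = 0 := Iff.rfl

omit [NeZero N] in
/-- **Core step**: a relation supported where suitable level-one multipliers do not vanish
is trivial, provided one can divide by a level-one form `P` vanishing at `τ`. -/
theorem relSub_core (hB : IsHomBasis N k F) (τ : ℍ) {p : ℤ} {P : ℍ → ℂ} (hP : IsMF ⊤ p P)
    (hPτ : P τ = 0)
    (hdiv : ∀ (K : ℤ) (f : ℍ → ℂ), IsMF (Gamma0 N) K f → (∀ g : SL(2, ℤ), f (g • τ) = 0) →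
      ∃ h : ℍ → ℂ, IsMF (Gamma0 N) (K - p) h ∧ f = P * h)
    (K : ℤ) (a : ι → ℍ → ℂ) (ha : ∀ j, IsMF ⊤ (K - k j) (a j))
    (c : ι → ℂ) (hca : ∀ j, c j ≠ 0 → a j τ ≠ 0)
    (hrel : c ∈ relSub k F τ) : c = 0 := by
  classical
  have hcancel : ∀ j, c j / a j τ * a j τ = c j := by
    intro j
    by_cases hc : c j = 0
    · simp [hc]
    · exact div_mul_cancel₀ _ (hca j hc)
  set f : ℍ → ℂ := ∑ j, ((c j / a j τ) • a j) * F j with hf
  have hfMF : IsMF (Gamma0 N) K f := by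
    refine isMF_sum _ _ (fun j _ => ?_)
    exact isMF_congr (by ring) (isMF_mul (isMF_smul _ (isMF_of_top (ha j))) (hB.mem j))
  have hfτ : ∀ g : SL(2, ℤ), (f ∣[K] g) τ = 0 := by
    intro g
    have h1 : f ∣[K] g = ∑ j, ((c j / a j τ) • a j) * (F j ∣[k j] g) := by
      rw [hf, SlashAction.sum_slash]
      refine Finset.sum_congr rfl (fun j _ => ?_)
      exact mul_slash_levelOne (by ring) (isMF_smul _ (ha j)) _ _
    rw [h1, Finset.sum_apply]
    rw [← hrel g]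
    refine Finset.sum_congr rfl (fun j _ => ?_)
    simp only [Pi.mul_apply, Pi.smul_apply, smul_eq_mul, hcancel j]
  have hf0 : ∀ g : SL(2, ℤ), f (g • τ) = 0 := by
    intro g
    have h1 := hfτ g
    rw [ModularForm.SL_slash_apply] at h1
    rcases mul_eq_zero.mp h1 with h2 | h2
    · exact h2
    · exact absurd h2 (zpow_ne_zero _ (denom_ne_zero _ _))
  obtain ⟨h, hh, hfh⟩ := hdiv K f hfMF hf0
  obtain ⟨b, hb, hhb⟩ := hB.span (K - p) h hh
  have hind := hB.indep K (fun j => (c j / a j τ) • a j - P * b j)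
    (fun j => isMF_sub (isMF_smul _ (ha j))
      (isMF_congr (by ring) (isMF_mul hP (hb j))))
    (by
      simp only [sub_mul, Finset.sum_sub_distrib, mul_assoc, ← Finset.mul_sum, ← hhb, ← hfh,
        ← hf, sub_self])
  funext j
  have h1 := congrFun (hind j) τ
  simp only [Pi.sub_apply, Pi.smul_apply, Pi.mul_apply, smul_eq_mul, hPτ, zero_mul, sub_zero,
    Pi.zero_apply, hcancel j] at h1
  simpa using h1

/-- Stability of the relation space under the stabiliser of `τ`. -/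
theorem relSub_stab {τ : ℍ} (s : SL(2, ℤ)) (hs : s • τ = τ) {c : ι → ℂ}
    (hc : c ∈ relSub k F τ) :
    (fun j => denom s τ ^ (-k j) * c j) ∈ relSub k F τ := by
  intro g
  have h1 := hc (g * s)
  rw [← h1]
  refine Finset.sum_congr rfl (fun j _ => ?_)
  rw [SlashAction.slash_mul, ModularForm.SL_slash_apply (f := F j ∣[k j] g), hs]
  ring

/-- Transport of relations along the orbit. -/
theorem relSub_smul {τ : ℍ} (g₀ : SL(2, ℤ)) {c : ι → ℂ}
    (hc : c ∈ relSub k F (g₀ • τ)) :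
    (fun j => denom g₀ τ ^ (k j) * c j) ∈ relSub k F τ := by
  intro g
  have h1 := hc (g * g₀⁻¹)
  rw [← h1]
  refine Finset.sum_congr rfl (fun j _ => ?_)
  have h2 : (F j ∣[k j] g) τ = (F j ∣[k j] (g * g₀⁻¹)) (g₀ • τ) * denom g₀ τ ^ (-k j) := by
    rw [← ModularForm.SL_slash_apply, ← SlashAction.slash_mul, inv_mul_cancel_right]
  rw [h2]
  have h3 : denom g₀ τ ^ (k j) * denom g₀ τ ^ (-k j) = 1 := by
    rw [← zpow_add₀ (denom_ne_zero _ _), add_neg_cancel, zpow_zero]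
  linear_combination (c j * (F j ∣[k j] (g * g₀⁻¹)) (g₀ • τ)) * h3

theorem relSub_eq_bot_of_smul {τ : ℍ} (g₀ : SL(2, ℤ)) (h : relSub k F τ = ⊥) :
    relSub k F (g₀ • τ) = ⊥ := by
  rw [eq_bot_iff]
  intro c hc
  have h1 := relSub_smul g₀ hc
  rw [h, Submodule.mem_bot] at h1
  rw [Submodule.mem_bot]
  funext j
  have h2 := congrFun h1 j
  simp only [Pi.zero_apply, mul_eq_zero] at h2
  rcases h2 with h2 | h2
  · exact absurd h2 (zpow_ne_zero _ (denom_ne_zero _ _))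
  · exact h2

/-- Linear algebra: a submodule of `ι → ℂ` stable under a diagonal operator is stable under the
projections onto its eigenspaces. -/
theorem mem_of_stable_diag {ι : Type*} [Fintype ι] (R : Submodule ℂ (ι → ℂ)) (lam : ι → ℂ)
    (hR : ∀ c ∈ R, (fun j => lam j * c j) ∈ R) (ζ : ℂ) (c : ι → ℂ) (hc : c ∈ R) :
    (fun j => if lam j = ζ then c j else 0) ∈ R := by
  classical
  have key : ∀ s : Finset ℂ, (fun j => (∏ μ ∈ s, (lam j - μ)) * c j) ∈ R := by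
    intro s
    induction s using Finset.induction_on with
    | empty => simpa using hc
    | insert μ s hμ ih =>
      have h1 := hR _ ih
      have h2 := R.smul_mem μ ih
      have h3 := R.sub_mem h1 h2
      convert h3 using 1
      funext j
      simp only [Finset.prod_insert hμ, Pi.sub_apply, Pi.smul_apply, smul_eq_mul]
      ring
  set Λ : Finset ℂ := (Finset.univ.image lam).erase ζ with hΛ
  have hD : (∏ μ ∈ Λ, (ζ - μ)) ≠ 0 := by
    rw [Finset.prod_ne_zero_iff]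
    intro μ hμ
    rw [sub_ne_zero]
    exact fun h => (Finset.ne_of_mem_erase hμ) h.symm
  have h1 := R.smul_mem (∏ μ ∈ Λ, (ζ - μ))⁻¹ (key Λ)
  convert h1 using 1
  funext j
  simp only [Pi.smul_apply, smul_eq_mul]
  by_cases hj : lam j = ζ
  · rw [if_pos hj, hj, ← mul_assoc, inv_mul_cancel₀ hD, one_mul]
  · rw [if_neg hj]
    have : (∏ μ ∈ Λ, (lam j - μ)) = 0 := by
      apply Finset.prod_eq_zero (i := lam j)
      · rw [hΛ, Finset.mem_erase]
        exact ⟨hj, Finset.mem_image_of_mem _ (Finset.mem_univ j)⟩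
      · exact sub_self _
    rw [this]
    ring

omit [NeZero N] in
/-- **Uniform statement**: if `s` stabilises `τ`, `u = denom s τ` has finite order dividing
`d`, level-one forms not vanishing at `τ` exist in all large weights `n` with `u ^ n = 1`,
and one can divide by a level-one form `P` vanishing at `τ`, then there are no relations
at `τ`. -/
theorem relSub_eq_bot_of (hB : IsHomBasis N k F) (τ : ℍ) {p : ℤ} {P : ℍ → ℂ}
    (hP : IsMF ⊤ p P) (hPτ : P τ = 0)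
    (hdiv : ∀ (K : ℤ) (f : ℍ → ℂ), IsMF (Gamma0 N) K f → (∀ g : SL(2, ℤ), f (g • τ) = 0) →
      ∃ h : ℍ → ℂ, IsMF (Gamma0 N) (K - p) h ∧ f = P * h)
    (s : SL(2, ℤ)) (hs : s • τ = τ) (d : ℕ) (hd : 0 < d) (hud : denom s τ ^ d = 1)
    (n₀ : ℤ)
    (hex : ∀ n : ℤ, n₀ ≤ n → denom s τ ^ n = 1 → ∃ a : ℍ → ℂ, IsMF ⊤ n a ∧ a τ ≠ 0) :
    relSub k F τ = ⊥ := by
  classical
  rw [eq_bot_iff]
  intro c hc
  rw [Submodule.mem_bot]
  set u : ℂ := denom s τ with hu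
  have hu0 : u ≠ 0 := denom_ne_zero _ _
  -- the class projections
  have hcl : ∀ ζ : ℂ, (fun j => if u ^ (-k j) = ζ then c j else 0) = 0 := by
    intro ζ
    have hmem : (fun j => if u ^ (-k j) = ζ then c j else 0) ∈ relSub k F τ :=
      mem_of_stable_diag (relSub k F τ) (fun j => u ^ (-k j))
        (fun c hc => relSub_stab s hs hc) ζ c hc
    by_contra hne
    obtain ⟨j₀, hj₀⟩ : ∃ j₀, (if u ^ (-k j₀) = ζ then c j₀ else 0) ≠ 0 := by
      by_contra hall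
      push Not at hall
      exact hne (funext hall)
    have hj₀ζ : u ^ (-k j₀) = ζ := by
      by_contra h
      rw [if_neg h] at hj₀
      exact hj₀ rfl
    -- choice of the weight
    obtain ⟨M, hM⟩ : ∃ M : ℕ, ∀ j, n₀ + k j - k j₀ ≤ (d : ℤ) * M := by
      refine ⟨(n₀ + ∑ j, |k j| + |k j₀|).toNat, fun j => ?_⟩
      have h1 : k j ≤ ∑ i, |k i| :=
        (le_abs_self _).trans (Finset.single_le_sum (f := fun i => |k i|)
          (fun i _ => abs_nonneg _) (Finset.mem_univ j))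
      have h2 : -k j₀ ≤ |k j₀| := neg_le_abs _
      have h3 : (0 : ℤ) ≤ ((n₀ + ∑ j, |k j| + |k j₀|).toNat : ℤ) := by positivity
      have h4 : n₀ + ∑ j, |k j| + |k j₀| ≤ ((n₀ + ∑ j, |k j| + |k j₀|).toNat : ℤ) :=
        Int.self_le_toNat _
      have h5 : (1 : ℤ) ≤ d := by exact_mod_cast hd
      nlinarith
    set K : ℤ := k j₀ + d * M with hK
    have hpow : ∀ j, u ^ (-k j) = ζ → u ^ (K - k j) = 1 := by
      intro j hj
      have h1 : u ^ (K - k j) = u ^ (-k j) * (u ^ (-k j₀))⁻¹ * (u ^ d) ^ M := by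
        rw [← zpow_neg, ← zpow_natCast (u ^ d), ← zpow_natCast u, ← zpow_mul,
          ← zpow_add₀ hu0, ← zpow_add₀ hu0]
        congr 1
        rw [hK]
        ring
      rw [h1, hj, hj₀ζ, hud, one_pow, mul_one]
      exact mul_inv_cancel₀ (by rw [← hj₀ζ]; exact zpow_ne_zero _ hu0)
    have hchoice : ∀ j, ∃ a : ℍ → ℂ, IsMF ⊤ (K - k j) a ∧ (u ^ (-k j) = ζ → a τ ≠ 0) := by
      intro j
      by_cases hj : u ^ (-k j) = ζ
      · obtain ⟨a, ha, haτ⟩ := hex (K - k j) (by have := hM j; rw [hK]; linarith) (hpow j hj)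
        exact ⟨a, ha, fun _ => haτ⟩
      · exact ⟨0, isMF_zero, fun h => absurd h hj⟩
    choose a ha haτ using hchoice
    refine hne (relSub_core hB τ hP hPτ hdiv K a ha _ (fun j hj => haτ j ?_) hmem)
    by_contra h
    rw [if_neg h] at hj
    exact hj rfl
  funext j
  have h1 := congrFun (hcl (u ^ (-k j))) j
  simpa using h1


/-! ### values of level-one forms at fixed points -/

/-- A level-one form of weight `n` vanishes at a fixed point `τ` of `s` unless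
`denom s τ ^ n = 1`. -/
theorem levelOne_eq_zero_of_fixed {n : ℤ} {a : ℍ → ℂ} (ha : IsMF ⊤ n a) {τ : ℍ} (s : SL(2, ℤ))
    (hs : s • τ = τ) (hu : denom s τ ^ n ≠ 1) : a τ = 0 := by
  have h1 := congrFun (slash_eq_of_top ha s) τ
  rw [ModularForm.SL_slash_apply, hs] at h1
  by_contra h0
  apply hu
  have h2 : denom s τ ^ (-n) = 1 := by
    have h3 : a τ * denom s τ ^ (-n) = a τ * 1 := by rw [h1, mul_one]
    exact mul_left_cancel₀ h0 h3
  rw [zpow_neg, inv_eq_one] at h2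
  exact h2

theorem E₄_ne_zero_of_E₆_eq_zero {τ : ℍ} (h : E₆ τ = 0) : E₄ τ ≠ 0 := by
  intro h4
  have h1 := ModularForm.discriminant_eq_E₄_cube_sub_E₆_sq τ
  rw [h, h4] at h1
  exact ModularForm.discriminant_ne_zero τ (by rw [h1]; norm_num)

theorem E₆_ne_zero_of_E₄_eq_zero {τ : ℍ} (h : E₄ τ = 0) : E₆ τ ≠ 0 := by
  intro h6
  have h1 := ModularForm.discriminant_eq_E₄_cube_sub_E₆_sq τ
  rw [h, h6] at h1
  exact ModularForm.discriminant_ne_zero τ (by rw [h1]; norm_num)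

/-- Monomials in `E₄`, `E₆` realise every even weight `≥ 4` without vanishing at a
non-elliptic point. -/
theorem exists_monomial_ne_zero {τ : ℍ} (h4 : E₄ τ ≠ 0) (h6 : E₆ τ ≠ 0) {n : ℤ} (hn : 4 ≤ n)
    (heven : Even n) : ∃ a : ℍ → ℂ, IsMF ⊤ n a ∧ a τ ≠ 0 := by
  obtain ⟨x, y, hxy⟩ : ∃ x y : ℕ, (x : ℤ) * 4 + (y : ℤ) * 6 = n := by
    obtain ⟨m, hm⟩ := heven
    by_cases h : n % 4 = 0
    · exact ⟨(n / 4).toNat, 0, by omega⟩
    · exact ⟨((n - 6) / 4).toNat, 1, by omega⟩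
  refine ⟨(⇑E₄) ^ x * (⇑E₆) ^ y,
    isMF_congr hxy (isMF_mul (isMF_pow isMF_E₄ x) (isMF_pow isMF_E₆ y)), ?_⟩
  simp only [Pi.mul_apply, Pi.pow_apply]
  exact mul_ne_zero (pow_ne_zero _ h4) (pow_ne_zero _ h6)

/-! ### the generic point -/

theorem neg_one_smul_eq (τ : ℍ) : (-1 : SL(2, ℤ)) • τ = τ := by
  rw [ModularGroup.SL_neg_smul, one_smul]

theorem denom_neg_one (τ : ℍ) : denom (-1 : SL(2, ℤ)) τ = -1 := by
  rw [ModularGroup.denom_apply]
  simp

omit [NeZero N] in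
/-- No relations at a point which is not elliptic. -/
theorem relSub_eq_bot_generic (hB : IsHomBasis N k F) {τ : ℍ} (h4 : E₄ τ ≠ 0) (h6 : E₆ τ ≠ 0)
    {P : ℍ → ℂ} (hP : IsMF ⊤ 12 P) (hPτ : P τ = 0)
    (hdiv : ∀ (K : ℤ) (f : ℍ → ℂ), IsMF (Gamma0 N) K f → (∀ g : SL(2, ℤ), f (g • τ) = 0) →
      ∃ h : ℍ → ℂ, IsMF (Gamma0 N) (K - 12) h ∧ f = P * h) :
    relSub k F τ = ⊥ := by
  refine relSub_eq_bot_of hB τ hP hPτ hdiv (-1) (neg_one_smul_eq τ) 2 (by norm_num)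
    (by rw [denom_neg_one]; norm_num) 4 (fun n hn hu => ?_)
  refine exists_monomial_ne_zero h4 h6 hn ?_
  rw [denom_neg_one] at hu
  by_contra hodd
  rw [Int.not_even_iff_odd] at hodd
  rw [hodd.neg_one_zpow] at hu
  norm_num at hu


/-! ### the point `i` -/

theorem S_smul_I : ModularGroup.S • UpperHalfPlane.I = UpperHalfPlane.I := by
  rw [modular_S_smul]
  ext
  simp [UpperHalfPlane.I]

theorem denom_S_I : denom ModularGroup.S UpperHalfPlane.I = Complex.I := by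
  rw [ModularGroup.denom_S]
  rfl

theorem E₆_I : E₆ UpperHalfPlane.I = 0 := by
  refine levelOne_eq_zero_of_fixed isMF_E₆ ModularGroup.S S_smul_I ?_
  rw [denom_S_I, Ne, Complex.isPrimitiveRoot_I.zpow_eq_one_iff_dvd]
  norm_num

theorem E₄_I_ne_zero : E₄ UpperHalfPlane.I ≠ 0 := E₄_ne_zero_of_E₆_eq_zero E₆_I

omit [NeZero N] in
/-- No relations at `i`. -/
theorem relSub_eq_bot_I (hB : IsHomBasis N k F)
    (hdiv : ∀ (K : ℤ) (f : ℍ → ℂ), IsMF (Gamma0 N) K f →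
      (∀ g : SL(2, ℤ), f (g • UpperHalfPlane.I) = 0) →
      ∃ h : ℍ → ℂ, IsMF (Gamma0 N) (K - 6) h ∧ f = ⇑E₆ * h) :
    relSub k F UpperHalfPlane.I = ⊥ := by
  refine relSub_eq_bot_of hB _ isMF_E₆ E₆_I hdiv ModularGroup.S S_smul_I 4 (by norm_num)
    (by rw [denom_S_I]; exact Complex.I_pow_four) 0 (fun n hn hu => ?_)
  rw [denom_S_I, Complex.isPrimitiveRoot_I.zpow_eq_one_iff_dvd] at hu
  obtain ⟨x, hx⟩ := hu
  push_cast at hx
  refine ⟨(⇑E₄) ^ x.toNat, isMF_congr (by omega) (isMF_pow isMF_E₄ _), ?_⟩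
  simp only [Pi.pow_apply]
  exact pow_ne_zero _ E₄_I_ne_zero

/-! ### the point `ρ` -/

theorem rho_coe : (rho : ℂ) = ⟨-1 / 2, Real.sqrt 3 / 2⟩ := rfl

theorem rho_sq : (rho : ℂ) ^ 2 + (rho : ℂ) + 1 = 0 := by
  have h3 : Real.sqrt 3 * Real.sqrt 3 = 3 := Real.mul_self_sqrt (by norm_num)
  rw [rho_coe]
  apply Complex.ext
  · simp only [pow_two, Complex.add_re, Complex.mul_re, Complex.one_re, Complex.zero_re]
    nlinarith
  · simp only [pow_two, Complex.add_im, Complex.mul_im, Complex.one_im, Complex.zero_im]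
    nlinarith

/-- The generator `S * T` of the stabiliser of `ρ`. -/
noncomputable def stMat : SL(2, ℤ) := ModularGroup.S * ModularGroup.T

theorem ST_smul_rho : stMat • rho = rho := by
  rw [stMat, mul_smul, modular_T_smul, modular_S_smul]
  ext
  simp only [coe_vadd]
  have h := rho_sq
  apply inv_eq_of_mul_eq_one_left
  push_cast
  linear_combination -h

theorem denom_ST_rho : denom stMat rho = (rho : ℂ) + 1 := by
  rw [ModularGroup.denom_apply]
  have h10 : (stMat : Matrix (Fin 2) (Fin 2) ℤ) 1 0 = 1 := by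
    simp [stMat, Matrix.SpecialLinearGroup.coe_mul, ModularGroup.coe_S, ModularGroup.coe_T]
  have h11 : (stMat : Matrix (Fin 2) (Fin 2) ℤ) 1 1 = 1 := by
    simp [stMat, Matrix.SpecialLinearGroup.coe_mul, ModularGroup.coe_S, ModularGroup.coe_T]
  rw [h10, h11]
  simp

theorem isPrimitiveRoot_six_aux {u : ℂ} (hu : u ^ 2 = u - 1) (him : u.im ≠ 0) :
    IsPrimitiveRoot u 6 := by
  refine IsPrimitiveRoot.mk_of_lt u (by norm_num) ?_ ?_
  · linear_combination (u ^ 4 + u ^ 3 - u - 1) * hu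
  · intro l hl0 hl6 h
    apply him
    interval_cases l
    · have : u = 1 := by linear_combination h
      rw [this]; simp
    · have : u = 2 := by linear_combination h - hu
      rw [this]; simp
    · exfalso
      have : (2 : ℂ) = 0 := by linear_combination -h + (u + 1) * hu
      norm_num at this
    · have : u = -1 := by linear_combination -h + (u ^ 2 + u) * hu
      rw [this]; simp
    · have : u = 0 := by linear_combination -h + (u ^ 3 + u ^ 2 - 1) * hu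
      rw [this]; simp

theorem isPrimitiveRoot_denom_ST_rho : IsPrimitiveRoot (denom stMat rho) 6 := by
  rw [denom_ST_rho]
  refine isPrimitiveRoot_six_aux ?_ ?_
  · linear_combination rho_sq
  · rw [rho_coe]
    simp

theorem E₄_rho : E₄ rho = 0 := by
  refine levelOne_eq_zero_of_fixed isMF_E₄ stMat ST_smul_rho ?_
  rw [Ne, isPrimitiveRoot_denom_ST_rho.zpow_eq_one_iff_dvd]
  norm_num

theorem E₆_rho_ne_zero : E₆ rho ≠ 0 := E₆_ne_zero_of_E₄_eq_zero E₄_rho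

omit [NeZero N] in
/-- No relations at `ρ`. -/
theorem relSub_eq_bot_rho (hB : IsHomBasis N k F)
    (hdiv : ∀ (K : ℤ) (f : ℍ → ℂ), IsMF (Gamma0 N) K f →
      (∀ g : SL(2, ℤ), f (g • rho) = 0) →
      ∃ h : ℍ → ℂ, IsMF (Gamma0 N) (K - 4) h ∧ f = ⇑E₄ * h) :
    relSub k F rho = ⊥ := by
  refine relSub_eq_bot_of hB _ isMF_E₄ E₄_rho hdiv stMat ST_smul_rho 6 (by norm_num)
    isPrimitiveRoot_denom_ST_rho.pow_eq_one 0 (fun n hn hu => ?_)
  rw [isPrimitiveRoot_denom_ST_rho.zpow_eq_one_iff_dvd] at hu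
  obtain ⟨x, hx⟩ := hu
  push_cast at hx
  refine ⟨(⇑E₆) ^ x.toNat, isMF_congr (by omega) (isMF_pow isMF_E₆ _), ?_⟩
  simp only [Pi.pow_apply]
  exact pow_ne_zero _ E₆_rho_ne_zero

/-! ### all points -/

theorem isMF_Pform (τ₀ : ℍ) :
    IsMF ⊤ 12 (fun z : ℍ => E₄ z ^ 3 * E₆ τ₀ ^ 2 - E₆ z ^ 2 * E₄ τ₀ ^ 3) := by
  have h : (fun z : ℍ => E₄ z ^ 3 * E₆ τ₀ ^ 2 - E₆ z ^ 2 * E₄ τ₀ ^ 3) =
      (E₆ τ₀ ^ 2) • (⇑E₄) ^ 3 - (E₄ τ₀ ^ 3) • (⇑E₆) ^ 2 := by
    funext z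
    simp only [Pi.sub_apply, Pi.smul_apply, Pi.pow_apply, smul_eq_mul]
    ring
  rw [h]
  exact isMF_sub (isMF_smul _ (isMF_congr (by norm_num) (isMF_pow isMF_E₄ 3)))
    (isMF_smul _ (isMF_congr (by norm_num) (isMF_pow isMF_E₆ 2)))

omit [NeZero N] in
/-- **No relations at any point**, given the division lemmas and the location of the zeros of
`E₄`, `E₆`. -/
theorem relSub_eq_bot (hB : IsHomBasis N k F)
    (hdivP : ∀ τ₀ : ℍ, E₄ τ₀ ≠ 0 → E₆ τ₀ ≠ 0 → ∀ (K : ℤ) (f : ℍ → ℂ), IsMF (Gamma0 N) K f →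
      (∀ g : SL(2, ℤ), f (g • τ₀) = 0) →
      ∃ h : ℍ → ℂ, IsMF (Gamma0 N) (K - 12) h ∧
        f = (fun z : ℍ => E₄ z ^ 3 * E₆ τ₀ ^ 2 - E₆ z ^ 2 * E₄ τ₀ ^ 3) * h)
    (hdiv6 : ∀ (K : ℤ) (f : ℍ → ℂ), IsMF (Gamma0 N) K f →
      (∀ g : SL(2, ℤ), f (g • UpperHalfPlane.I) = 0) →
      ∃ h : ℍ → ℂ, IsMF (Gamma0 N) (K - 6) h ∧ f = ⇑E₆ * h)
    (hdiv4 : ∀ (K : ℤ) (f : ℍ → ℂ), IsMF (Gamma0 N) K f →
      (∀ g : SL(2, ℤ), f (g • rho) = 0) →
      ∃ h : ℍ → ℂ, IsMF (Gamma0 N) (K - 4) h ∧ f = ⇑E₄ * h)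
    (hz6 : ∀ z : ℍ, E₆ z = 0 → ∃ g : SL(2, ℤ), g • UpperHalfPlane.I = z)
    (hz4 : ∀ z : ℍ, E₄ z = 0 → ∃ g : SL(2, ℤ), g • rho = z)
    (τ : ℍ) : relSub k F τ = ⊥ := by
  by_cases h6 : E₆ τ = 0
  · obtain ⟨g, rfl⟩ := hz6 τ h6
    exact relSub_eq_bot_of_smul g (relSub_eq_bot_I hB hdiv6)
  by_cases h4 : E₄ τ = 0
  · obtain ⟨g, rfl⟩ := hz4 τ h4
    exact relSub_eq_bot_of_smul g (relSub_eq_bot_rho hB hdiv4)
  exact relSub_eq_bot_generic hB h4 h6 (isMF_Pform τ) (by ring) (hdivP τ h4 h6)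

omit [NeZero N] in
/-- Pointwise independence from the vanishing of the relation space. -/
theorem pointwise_indep_of_relSub (hB : IsHomBasis N k F) (τ : ℍ) (h : relSub k F τ = ⊥) :
    LinearIndependent ℂ
      (fun j : ι => fun q : SL(2, ℤ) ⧸ Gamma0 N => conj (Gamma0 N) (k j) (F j) q τ) := by
  rw [Fintype.linearIndependent_iff]
  intro c hc j
  have hmem : c ∈ relSub k F τ := by
    intro g
    have h1 := congrFun hc ((g⁻¹ : SL(2, ℤ)) : SL(2, ℤ) ⧸ Gamma0 N)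
    simp only [Finset.sum_apply, Pi.smul_apply, smul_eq_mul, Pi.zero_apply] at h1
    rw [← h1]
    refine Finset.sum_congr rfl (fun j _ => ?_)
    rw [conj_eq_slash_inv (hB.mem j).2.1, inv_inv]
  rw [h, Submodule.mem_bot] at hmem
  exact congrFun hmem j

omit [NeZero N] in
/-- **C-core 1** (conditional on the division lemmas of package A3, in exactly the form of
`div_P`, `div_E₆`, `div_E₄`, `E₆_eq_zero_iff`, `E₄_eq_zero_iff`): at every point the conjugate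
vectors of a homogeneous basis are linearly independent. -/
theorem pointwise_indep_of_div (hB : IsHomBasis N k F)
    (hdivP : ∀ τ₀ : ℍ, E₄ τ₀ ≠ 0 → E₆ τ₀ ≠ 0 → ∀ (K : ℤ) (f : ℍ → ℂ), IsMF (Gamma0 N) K f →
      (∀ g : SL(2, ℤ), f (g • τ₀) = 0) →
      ∃ h : ℍ → ℂ, IsMF (Gamma0 N) (K - 12) h ∧
        f = (fun z : ℍ => E₄ z ^ 3 * E₆ τ₀ ^ 2 - E₆ z ^ 2 * E₄ τ₀ ^ 3) * h)
    (hdiv6 : ∀ (K : ℤ) (f : ℍ → ℂ), IsMF (Gamma0 N) K f →
      (∀ g : SL(2, ℤ), f (g • UpperHalfPlane.I) = 0) →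
      ∃ h : ℍ → ℂ, IsMF (Gamma0 N) (K - 6) h ∧ f = ⇑E₆ * h)
    (hdiv4 : ∀ (K : ℤ) (f : ℍ → ℂ), IsMF (Gamma0 N) K f →
      (∀ g : SL(2, ℤ), f (g • rho) = 0) →
      ∃ h : ℍ → ℂ, IsMF (Gamma0 N) (K - 4) h ∧ f = ⇑E₄ * h)
    (hz6 : ∀ z : ℍ, E₆ z = 0 → ∃ g : SL(2, ℤ), g • UpperHalfPlane.I = z)
    (hz4 : ∀ z : ℍ, E₄ z = 0 → ∃ g : SL(2, ℤ), g • rho = z)
    (τ : ℍ) :
    LinearIndependent ℂ
      (fun j : ι => fun q : SL(2, ℤ) ⧸ Gamma0 N => conj (Gamma0 N) (k j) (F j) q τ) :=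
  pointwise_indep_of_relSub hB τ (relSub_eq_bot hB hdivP hdiv6 hdiv4 hz6 hz4 τ)

end Fermat.Agent.S20.H783
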