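import Fermat.Agent.S20.Division
import Fermat.Agent.S20.H783.PointIndep

/-!
# S20 / package Cc (helper783): `pointwise_indep`, unconditional

Exact statement of the skeleton file `PointIndep.lean` (C-core 1), obtained from
`H783.pointwise_indep_of_div` and the division lemmas of `Division.lean`.
-/

set_option autoImplicit false

open UpperHalfPlane ModularForm CongruenceSubgroup Matrix.SpecialLinearGroup EisensteinSeries
open scoped MatrixGroups ModularForm Manifold

namespace Fermat.Agent.S20.H783

variable {N : ℕ} {ι : Type} [Fintype ι] {k : ι → ℤ} {F : ι → ℍ → ℂ}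

/-- No relation among the values at `τ` of the translates of a homogeneous basis. -/
theorem relSub_eq_bot_main (hB : IsHomBasis N k F) (τ : ℍ) : relSub k F τ = ⊥ :=
  relSub_eq_bot hB (fun _ h4 h6 _ _ hf h0 => div_P h4 h6 hf h0)
    (fun _ _ hf h0 => div_E₆ hf h0) (fun _ _ hf h0 => div_E₄ hf h0)
    (fun z h => (E₆_eq_zero_iff z).mp h) (fun z h => (E₄_eq_zero_iff z).mp h) τ

/-- **C-core 1**: at every point the conjugate vectors of the basis are linearly independent. -/
theorem pointwise_indep (hB : IsHomBasis N k F) (τ : ℍ) :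
    LinearIndependent ℂ
      (fun j : ι => fun q : SL(2, ℤ) ⧸ Gamma0 N => conj (Gamma0 N) (k j) (F j) q τ) :=
  pointwise_indep_of_relSub hB τ (relSub_eq_bot_main hB τ)

/-- Explicit form: a relation `∑ c_j (F_j ∣[k_j] g)(τ) = 0` for all `g` forces `c = 0`. -/
theorem eq_zero_of_forall_slash (hB : IsHomBasis N k F) (τ : ℍ) (c : ι → ℂ)
    (h : ∀ g : SL(2, ℤ), ∑ j, c j * (F j ∣[k j] g) τ = 0) : c = 0 := by
  have h1 : c ∈ relSub k F τ := h
  rw [relSub_eq_bot_main hB τ, Submodule.mem_bot] at h1
  exact h1

end Fermat.Agent.S20.H783
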